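import Mathlib
import Fermat.Prelude.Def_ModularCurve_ArithmeticGalois
import Fermat.Agent.S24.JRational

/-!
# MR / PLC / Ser / Canon : the series model.  Canonical representative and Kummer class (pure algebra).

`E / L` a field with an `L`-embedding `ι : E → L((q))`, `Γ` a group acting on `E` by semilinear automorphisms which are
COEFFICIENTWISE on the series (`SerModel`).  `lc y` = leading coefficient of `ι y` : multiplicative, `Γ`-equivariant, and it detects
the roots of unity.  This replaces every `H¹ / H²`-argument.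

* `SerModel.eq_of_pow_eq`      : a `p`-th root is determined by its leading coefficient;
* `SerModel.exists_fixed_rep`  : **canonical representative**.  `u ≠ 0` with finite `Γ`-orbit, `lc u = 1`, `γ u / u ∈ E ^ p` for all `γ`.  Then there is
  `d ≠ 0` with `u d ^ p` fixed by `Γ`  (`d = ∑_{v ∈ Γ u} (v / u)^{1/p}`, the roots with `lc = 1`).
* `SerModel.kummer_class`      : `g` an `L`-automorphism of `E` commuting with `Γ`, `g u = u`, `u'' = u d ^ p` fixed by `Γ`.  Then `g u'' = u'' a h ^ p`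
  with `a = α ^ p ∈ L` fixed by `Γ`, `h` fixed by `Γ`, and every `γ` with `γ u ∈ u (E^g) ^ p` fixes `α`.
-/

set_option autoImplicit false
set_option linter.style.haveILetI false

noncomputable section

namespace Fermat.Agent.MR.PLC.Ser

open AlgebraicCurve ModularCurve HahnSeries Fermat.Agent.S24.JRational

/-- A series model: an embedding in `L((q))` for which the group `Γ` acts coefficientwise. -/
structure SerModel (L E Γ : Type*) [Field L] [Field E] [Algebra L E] [Group Γ] where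
  ι : E →ₐ[L] LaurentSeries L
  Φ : Γ →* SemilinearAut L E
  ι_smul : ∀ (γ : Γ) (y : E),
    ι (Φ γ • y) = coeffMap ((SemilinearAut.baseAut (Φ γ) : L ≃+* L) : L →+* L) (ι y)

namespace SerModel

variable {L E Γ : Type*} [Field L] [Field E] [Algebra L E] [Group Γ] (S : SerModel L E Γ)

/-- the leading coefficient. -/
def lc (y : E) : L := (S.ι y).leadingCoeff

/-- the order. -/
def od (y : E) : ℤ := (S.ι y).order

theorem lc_mul (y z : E) : S.lc (y * z) = S.lc y * S.lc z := by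
  unfold lc
  rw [map_mul, leadingCoeff_mul]

theorem lc_one : S.lc 1 = 1 := by
  unfold lc
  rw [map_one, leadingCoeff_one]

theorem lc_zero : S.lc 0 = 0 := by
  unfold lc
  rw [map_zero, leadingCoeff_zero]

theorem lc_eq_zero {y : E} : S.lc y = 0 ↔ y = 0 := by
  unfold lc
  rw [leadingCoeff_eq_zero, map_eq_zero]

theorem lc_ne_zero {y : E} (hy : y ≠ 0) : S.lc y ≠ 0 := fun h => hy (S.lc_eq_zero.1 h)

/-- `lc` as a monoid-with-zero homomorphism. -/
def lcHom : E →*₀ L where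
  toFun := S.lc
  map_zero' := S.lc_zero
  map_one' := S.lc_one
  map_mul' := S.lc_mul

theorem lcHom_apply (y : E) : S.lcHom y = S.lc y := rfl

theorem lc_pow (y : E) (n : ℕ) : S.lc (y ^ n) = S.lc y ^ n := map_pow S.lcHom y n

theorem lc_inv (y : E) : S.lc y⁻¹ = (S.lc y)⁻¹ := map_inv₀ S.lcHom y

theorem lc_div (y z : E) : S.lc (y / z) = S.lc y / S.lc z := map_div₀ S.lcHom y z

theorem lc_algebraMap (c : L) : S.lc (algebraMap L E c) = c := by
  unfold lc
  rw [AlgHom.commutes, algebraMap_laurentSeries_eq_single, leadingCoeff_of_single]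

theorem lc_smul (γ : Γ) (y : E) : S.lc (S.Φ γ • y) = SemilinearAut.baseAut (S.Φ γ) (S.lc y) := by
  unfold lc
  rw [S.ι_smul, leadingCoeff_coeffMap]
  rfl

theorem od_smul (γ : Γ) (y : E) : S.od (S.Φ γ • y) = S.od y := by
  unfold od
  rw [S.ι_smul, order_coeffMap]

theorem od_mul {y z : E} (hy : y ≠ 0) (hz : z ≠ 0) : S.od (y * z) = S.od y + S.od z := by
  unfold od
  rw [map_mul, order_mul ((map_ne_zero _).2 hy) ((map_ne_zero _).2 hz)]

theorem od_pow (y : E) (n : ℕ) : S.od (y ^ n) = n • S.od y := by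
  unfold od
  rw [map_pow, order_pow]

/-- A `p`-th root is determined by its leading coefficient. -/
theorem eq_of_pow_eq {p : ℕ} (hp : 0 < p) {ζ : L} (hζ : IsPrimitiveRoot ζ p) {y z : E}
    (h : y ^ p = z ^ p) (hlc : S.lc y = S.lc z) : y = z := by
  rcases eq_or_ne z 0 with rfl | hz
  · rw [S.lc_zero] at hlc
    exact S.lc_eq_zero.1 hlc
  have h1 : (y / z) ^ p = 1 := by rw [div_pow, h, div_self (pow_ne_zero _ hz)]
  have hζ' : IsPrimitiveRoot (algebraMap L E ζ) p := hζ.map_of_injective (algebraMap L E).injective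
  haveI : NeZero p := ⟨hp.ne'⟩
  obtain ⟨i, -, hi⟩ := hζ'.eq_pow_of_pow_eq_one h1
  have h2 : S.lc (y / z) = 1 := by rw [S.lc_div, hlc, div_self (S.lc_ne_zero hz)]
  rw [← hi, S.lc_pow, S.lc_algebraMap] at h2
  rw [← map_pow, h2, map_one] at hi
  rw [eq_comm, div_eq_one_iff_eq hz] at hi
  exact hi

omit [Group Γ] in
/-- an element with a `p`-th power equal to that of `z` is `ζ ^ i z`. -/
theorem exists_eq_zeta_mul {p : ℕ} (hp : 0 < p) {ζ : L} (hζ : IsPrimitiveRoot ζ p) {y z : E}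
    (hz : z ≠ 0) (h : y ^ p = z ^ p) : ∃ i : ℕ, y = algebraMap L E (ζ ^ i) * z := by
  have h1 : (y / z) ^ p = 1 := by rw [div_pow, h, div_self (pow_ne_zero _ hz)]
  have hζ' : IsPrimitiveRoot (algebraMap L E ζ) p := hζ.map_of_injective (algebraMap L E).injective
  haveI : NeZero p := ⟨hp.ne'⟩
  obtain ⟨i, -, hi⟩ := hζ'.eq_pow_of_pow_eq_one h1
  refine ⟨i, ?_⟩
  rw [map_pow, hi, div_mul_cancel₀ _ hz]

/-- normalisation of a `p`-th root. -/
theorem exists_root_lc_one {p : ℕ} (hp : 0 < p) {v c : E} (hv : S.lc v = 1) (hc : c ^ p = v) :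
    ∃ c' : E, c' ^ p = v ∧ S.lc c' = 1 := by
  have hc0 : c ≠ 0 := by
    rintro rfl
    rw [zero_pow hp.ne'] at hc
    rw [← hc, S.lc_zero] at hv
    exact zero_ne_one hv
  have h1 : S.lc c ^ p = 1 := by rw [← S.lc_pow, hc, hv]
  refine ⟨c / algebraMap L E (S.lc c), ?_, ?_⟩
  · rw [div_pow, ← map_pow, h1, map_one, div_one, hc]
  · rw [S.lc_div, S.lc_algebraMap, div_self (S.lc_ne_zero hc0)]

/-- an element of order `0` and leading coefficient `1` has constant coefficient `1`. -/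
theorem coeff_zero_of_od {y : E} (h0 : S.od y = 0) (h1 : S.lc y = 1) : (S.ι y).coeff 0 = 1 := by
  unfold od at h0
  unfold lc at h1
  rw [leadingCoeff_eq, h0] at h1
  exact h1

/-- **Canonical representative.** -/
theorem exists_fixed_rep [CharZero L] {p : ℕ} (hp : 0 < p) {ζ : L} (hζ : IsPrimitiveRoot ζ p) {u : E}
    (hu : S.lc u = 1) (hfin : (Set.range fun γ : Γ => S.Φ γ • u).Finite)
    (hroot : ∀ γ : Γ, ∃ c : E, c ^ p = (S.Φ γ • u) / u) :
    ∃ d : E, d ≠ 0 ∧ ∀ γ : Γ, S.Φ γ • (u * d ^ p) = u * d ^ p := by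
  classical
  have hu0 : u ≠ 0 := by
    rintro rfl
    rw [S.lc_zero] at hu
    exact zero_ne_one hu
  have hlcγ : ∀ γ : Γ, S.lc (S.Φ γ • u) = 1 := fun γ => by rw [S.lc_smul, hu, map_one]
  have hγ0 : ∀ γ : Γ, S.Φ γ • u ≠ 0 := fun γ h => by
    have := hlcγ γ
    rw [h, S.lc_zero] at this
    exact zero_ne_one this
  -- the normalised roots
  have hex : ∀ v : E, v ∈ hfin.toFinset → ∃ c : E, c ^ p = v / u ∧ S.lc c = 1 := by
    intro v hv
    obtain ⟨γ, rfl⟩ := hfin.mem_toFinset.1 hv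
    obtain ⟨c, hc⟩ := hroot γ
    exact S.exists_root_lc_one hp (by rw [S.lc_div, hlcγ, hu, div_one]) hc
  let c : E → E := fun v => if h : v ∈ hfin.toFinset then (hex v h).choose else 0
  have hc : ∀ γ : Γ, c (S.Φ γ • u) ^ p = (S.Φ γ • u) / u ∧ S.lc (c (S.Φ γ • u)) = 1 := by
    intro γ
    have hm : S.Φ γ • u ∈ hfin.toFinset := hfin.mem_toFinset.2 ⟨γ, rfl⟩
    have : c (S.Φ γ • u) = (hex _ hm).choose := dif_pos hm
    rw [this]
    exact (hex _ hm).choose_spec
  have hc0 : ∀ γ : Γ, c (S.Φ γ • u) ≠ 0 := fun γ h => by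
    have := (hc γ).2
    rw [h, S.lc_zero] at this
    exact zero_ne_one this
  -- the cocycle relation
  have hcoc : ∀ γ δ : Γ, S.Φ γ • c (S.Φ δ • u) = c (S.Φ (γ * δ) • u) / c (S.Φ γ • u) := by
    intro γ δ
    apply S.eq_of_pow_eq hp hζ
    · rw [← smul_pow', (hc δ).1, div_pow, (hc (γ * δ)).1, (hc γ).1, smul_div₀', map_mul, mul_smul]
      field_simp
    · rw [S.lc_smul, (hc δ).2, map_one, S.lc_div, (hc _).2, (hc _).2, div_one]
  let d : E := ∑ v ∈ hfin.toFinset, c v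
  have hod : ∀ γ : Γ, S.od (c (S.Φ γ • u)) = 0 := by
    intro γ
    have h1 : S.od (c (S.Φ γ • u) ^ p * u) = S.od (S.Φ γ • u) := by
      rw [(hc γ).1, div_mul_cancel₀ _ hu0]
    rw [S.od_mul (pow_ne_zero _ (hc0 γ)) hu0, S.od_pow, S.od_smul] at h1
    have h2 : p • S.od (c (S.Φ γ • u)) = 0 := by linarith
    rcases smul_eq_zero.1 h2 with h | h
    · exact absurd h hp.ne'
    · exact h
  have hd0 : d ≠ 0 := by
    intro h
    have h1 : (S.ι d).coeff 0 = (hfin.toFinset.card : L) := by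
      show (S.ι (∑ v ∈ hfin.toFinset, c v)).coeff 0 = _
      rw [map_sum, HahnSeries.coeff_sum, Finset.card_eq_sum_ones, Nat.cast_sum]
      refine Finset.sum_congr rfl fun v hv => ?_
      obtain ⟨γ, rfl⟩ := hfin.mem_toFinset.1 hv
      rw [S.coeff_zero_of_od (hod γ) (hc γ).2, Nat.cast_one]
    rw [h, map_zero, HahnSeries.coeff_zero] at h1
    have h2 : hfin.toFinset.card = 0 := by exact_mod_cast h1.symm
    rw [Finset.card_eq_zero] at h2
    have h3 : S.Φ 1 • u ∈ hfin.toFinset := hfin.mem_toFinset.2 ⟨1, rfl⟩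
    rw [h2] at h3
    exact absurd h3 (Finset.notMem_empty _)
  have hd : ∀ γ : Γ, S.Φ γ • d = d / c (S.Φ γ • u) := by
    intro γ
    show S.Φ γ • (∑ v ∈ hfin.toFinset, c v) = (∑ v ∈ hfin.toFinset, c v) / c (S.Φ γ • u)
    rw [Finset.smul_sum, Finset.sum_div]
    refine Finset.sum_bij' (fun v _ => S.Φ γ • v) (fun v _ => S.Φ γ⁻¹ • v) ?_ ?_ ?_ ?_ ?_
    · intro v hv
      obtain ⟨δ, rfl⟩ := hfin.mem_toFinset.1 hv
      exact hfin.mem_toFinset.2 ⟨γ * δ, by simp only [map_mul, mul_smul]⟩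
    · intro v hv
      obtain ⟨δ, rfl⟩ := hfin.mem_toFinset.1 hv
      exact hfin.mem_toFinset.2 ⟨γ⁻¹ * δ, by simp only [map_mul, mul_smul]⟩
    · intro v _
      rw [map_inv, inv_smul_smul]
    · intro v _
      rw [map_inv, smul_inv_smul]
    · intro v hv
      obtain ⟨δ, rfl⟩ := hfin.mem_toFinset.1 hv
      rw [hcoc γ δ, map_mul, mul_smul]
  refine ⟨d, hd0, fun γ => ?_⟩
  rw [smul_mul', smul_pow', hd γ, div_pow, (hc γ).1]
  have := hγ0 γ
  field_simp

/-- **The Kummer class of the canonical representative.** -/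
theorem kummer_class {p : ℕ} (hp : 0 < p) {ζ : L} (hζ : IsPrimitiveRoot ζ p) (g : E ≃ₐ[L] E)
    (hg : ∀ (γ : Γ) (y : E), g (S.Φ γ • y) = S.Φ γ • g y) {u d : E} (hu0 : u ≠ 0) (hd0 : d ≠ 0)
    (hgu : g u = u) (hfix : ∀ γ : Γ, S.Φ γ • (u * d ^ p) = u * d ^ p) :
    ∃ (α : L) (h : E), α ≠ 0 ∧ h ≠ 0 ∧
      g (u * d ^ p) = u * d ^ p * algebraMap L E (α ^ p) * h ^ p ∧
      (∀ γ : Γ, SemilinearAut.baseAut (S.Φ γ) (α ^ p) = α ^ p) ∧
      (∀ γ : Γ, S.Φ γ • h = h) ∧
      ∀ γ : Γ, (∃ c : E, c ≠ 0 ∧ g c = c ∧ S.Φ γ • u = u * c ^ p) →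
        SemilinearAut.baseAut (S.Φ γ) α = α := by
  have hgd0 : g d ≠ 0 := (map_ne_zero g).2 hd0
  set r : E := g d / d with hr
  have hr0 : r ≠ 0 := div_ne_zero hgd0 hd0
  have hα0 : S.lc r ≠ 0 := S.lc_ne_zero hr0
  have hαE : algebraMap L E (S.lc r) ≠ 0 := (map_ne_zero _).2 hα0
  have hrp : g (u * d ^ p) = u * d ^ p * r ^ p := by
    rw [map_mul, map_pow, hgu, hr, div_pow]
    field_simp
  have hrfix : ∀ γ : Γ, S.Φ γ • (r ^ p) = r ^ p := by
    intro γ
    have h1 : r ^ p = g (u * d ^ p) / (u * d ^ p) := by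
      rw [hrp, mul_div_cancel_left₀ _ (mul_ne_zero hu0 (pow_ne_zero _ hd0))]
    rw [h1, smul_div₀', ← hg, hfix]
  have hafix : ∀ γ : Γ, SemilinearAut.baseAut (S.Φ γ) (S.lc r ^ p) = S.lc r ^ p := by
    intro γ
    rw [← S.lc_pow, ← S.lc_smul, hrfix]
  refine ⟨S.lc r, r / algebraMap L E (S.lc r), hα0, div_ne_zero hr0 hαE, ?_, hafix, ?_, ?_⟩
  · have e1 : algebraMap L E (S.lc r) ^ p * (r / algebraMap L E (S.lc r)) ^ p = r ^ p := by
      rw [← mul_pow, mul_div_cancel₀ _ hαE]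
    rw [hrp, map_pow, ← e1]
    ring
  · intro γ
    apply S.eq_of_pow_eq hp hζ
    · rw [← smul_pow', div_pow, smul_div₀', hrfix, ← map_pow, SemilinearAut.smul_algebraMap, hafix]
    · rw [S.lc_smul, S.lc_div, S.lc_algebraMap, div_self hα0, map_one]
  · rintro γ ⟨c, hc0, hgc, hγu⟩
    have h1 : (S.Φ γ • d) ^ p = (d / c) ^ p := by
      have h2 := hfix γ
      rw [smul_mul', smul_pow', hγu] at h2
      rw [div_pow]
      field_simp
      have hcp : c ^ p ≠ 0 := pow_ne_zero _ hc0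
      apply mul_left_cancel₀ hu0
      linear_combination h2
    obtain ⟨i, hi⟩ := exists_eq_zeta_mul hp hζ (div_ne_zero hd0 hc0) h1
    have h3 : S.Φ γ • r = r := by
      rw [hr, smul_div₀', ← hg, hi, map_mul, AlgEquiv.commutes, map_div₀, hgc]
      have hz : algebraMap L E (ζ ^ i) ≠ 0 :=
        (map_ne_zero _).2 (pow_ne_zero _ (hζ.ne_zero hp.ne'))
      field_simp
    rw [← S.lc_smul, h3]

end SerModel

end Fermat.Agent.MR.PLC.Ser
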