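import Fermat.Agent.MR.PLC.Ser.Canon
import Fermat.Agent.GAL.Model
import Fermat.Agent.GAL.Tors.Desc.Orbit

/-!
# MR / PLC / Ser / Field : the Kummer cover INSIDE `L((q))` and the coefficientwise Galois action.

`L` algebraically closed of characteristic `0`, `F = laurentBaseChange L F₀ ⊆ L((q))`, `U ⊆ F` a set of functions.
`serField F₀ p U = F(y : y ^ p ∈ U) ⊆ L((q))`.

* `exists_pow_eq_laurent` : `p`-th roots in `L((q))`;
* `serField_finiteDimensional`, `serField_isGalois`, `serField_adjoin_roots_eq_top`;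
* `serAut` : the coefficientwise action of a subgroup `Γ ≤ Aut(L/ℚ)` which permutes `U` modulo `p`-th powers;
* `serModel : SerModel L (serField F₀ p U) Γ`;
* `serAut_algebraMap` : it extends `arithmeticGalois`;
* `deck_comm` : it commutes with `Gal(serField / F)` if `γ u ∈ u ^ a F ^ p` when `γ = (·)^a` on `μ_p`.
-/

set_option autoImplicit false
set_option linter.style.haveILetI false
set_option linter.unusedSectionVars false

noncomputable section

namespace Fermat.Agent.MR.PLC.Ser

open AlgebraicCurve ModularCurve HahnSeries Fermat.Agent.S24.JRational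

/-- `p`-th roots of `1`-units in `L[[q]]` (Hensel). -/
theorem exists_pow_eq_powerSeries {L : Type*} [Field L] {p : ℕ} (hp : (p : L) ≠ 0)
    (v : PowerSeries L) (hv : PowerSeries.constantCoeff v = 1) : ∃ y : PowerSeries L, y ^ p = v := by
  have hp0 : p ≠ 0 := by
    rintro rfl
    exact hp (by simp)
  have hmonic : (Polynomial.X ^ p - Polynomial.C v : Polynomial (PowerSeries L)).Monic :=
    Polynomial.monic_X_pow_sub_C v hp0
  have h1 : (Polynomial.X ^ p - Polynomial.C v : Polynomial (PowerSeries L)).eval 1 ∈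
      (Ideal.span {PowerSeries.X} : Ideal (PowerSeries L)) := by
    rw [Ideal.mem_span_singleton, PowerSeries.X_dvd_iff]
    simp [hv]
  have h2 : IsUnit (Ideal.Quotient.mk (Ideal.span {PowerSeries.X} : Ideal (PowerSeries L))
      ((Polynomial.X ^ p - Polynomial.C v : Polynomial (PowerSeries L)).derivative.eval 1)) := by
    apply IsUnit.map
    have : (Polynomial.X ^ p - Polynomial.C v : Polynomial (PowerSeries L)).derivative.eval 1
        = PowerSeries.C (p : L) := by
      rw [Polynomial.derivative_sub, Polynomial.derivative_C, sub_zero,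
        Polynomial.derivative_X_pow, Polynomial.eval_mul, Polynomial.eval_pow, Polynomial.eval_X,
        one_pow, mul_one, Polynomial.eval_C, map_natCast]
    rw [this]
    exact (IsUnit.mk0 _ hp).map PowerSeries.C
  obtain ⟨a, ha, -⟩ := HenselianRing.is_henselian
    (I := (Ideal.span {PowerSeries.X} : Ideal (PowerSeries L))) _ hmonic 1 h1 h2
  refine ⟨a, ?_⟩
  have := ha
  rw [Polynomial.IsRoot.def] at this
  simpa [sub_eq_zero] using this

/-- `p`-th roots in `L((q))`. -/
theorem exists_pow_eq_laurent {L : Type*} [Field L] [IsAlgClosed L] {p : ℕ} (hp : (p : L) ≠ 0)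
    (u : LaurentSeries L) (h : (p : ℤ) ∣ u.order) : ∃ y : LaurentSeries L, y ^ p = u := by
  have hp0 : p ≠ 0 := by
    rintro rfl
    exact hp (by simp)
  by_cases hu : u = 0
  · exact ⟨0, by rw [hu, zero_pow hp0]⟩
  obtain ⟨n, hn⟩ := h
  have hc : PowerSeries.constantCoeff (LaurentSeries.powerSeriesPart u) ≠ 0 := by
    rw [← PowerSeries.coeff_zero_eq_constantCoeff_apply, LaurentSeries.powerSeriesPart_coeff]
    simpa using (HahnSeries.coeff_order_eq_zero (x := u)).not.mpr hu
  set c := PowerSeries.constantCoeff (LaurentSeries.powerSeriesPart u) with hcdef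
  obtain ⟨b, hb⟩ := IsAlgClosed.exists_pow_nat_eq c (Nat.pos_of_ne_zero hp0)
  obtain ⟨y1, hy1⟩ := exists_pow_eq_powerSeries hp
    (PowerSeries.C c⁻¹ * LaurentSeries.powerSeriesPart u) (by
      rw [map_mul, PowerSeries.constantCoeff_C, ← hcdef, inv_mul_cancel₀ hc])
  refine ⟨HahnSeries.single n 1 * HahnSeries.ofPowerSeries ℤ L (PowerSeries.C b * y1), ?_⟩
  rw [mul_pow, ← map_pow (HahnSeries.ofPowerSeries ℤ L), mul_pow, hy1, ← map_pow PowerSeries.C, hb,
    ← mul_assoc, ← map_mul PowerSeries.C,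
    mul_inv_cancel₀ hc, map_one PowerSeries.C, one_mul, HahnSeries.single_pow, one_pow]
  conv_rhs => rw [← LaurentSeries.single_order_mul_powerSeriesPart u]
  rw [hn, nsmul_eq_mul]

variable {L : Type*} [Field L] [Algebra ℚ L] (F₀ : IntermediateField ℚ (LaurentSeries ℚ))

/-- The Kummer extension of `F` generated by the `p`-th roots IN `L((q))` of the elements of `U`. -/
def serField (p : ℕ) (U : Set (laurentBaseChange L F₀)) :
    IntermediateField (laurentBaseChange L F₀) (LaurentSeries L) :=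
  IntermediateField.adjoin (laurentBaseChange L F₀)
    {y | ∃ u ∈ U, y ^ p = algebraMap (laurentBaseChange L F₀) (LaurentSeries L) u}

variable {F₀} {p : ℕ} {U : Set (laurentBaseChange L F₀)}

theorem mem_serField_of_pow {y : LaurentSeries L} {u : laurentBaseChange L F₀} (hu : u ∈ U)
    (hy : y ^ p = algebraMap (laurentBaseChange L F₀) (LaurentSeries L) u) : y ∈ serField F₀ p U :=
  IntermediateField.subset_adjoin _ _ ⟨u, hu, hy⟩

example : Algebra L (serField F₀ p U) := inferInstance
example : IsScalarTower L (laurentBaseChange L F₀) (serField F₀ p U) := inferInstance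

theorem coe_algebraMap_serField (c : L) :
    ((algebraMap L (serField F₀ p U) c : serField F₀ p U) : LaurentSeries L) =
      algebraMap L (LaurentSeries L) c := rfl

theorem coe_algebraMap_serField' (f : laurentBaseChange L F₀) :
    ((algebraMap (laurentBaseChange L F₀) (serField F₀ p U) f : serField F₀ p U) : LaurentSeries L) =
      (f : LaurentSeries L) := by
  rw [← IntermediateField.algebraMap_apply (serField F₀ p U),
    ← IsScalarTower.algebraMap_apply, IntermediateField.algebraMap_apply]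

theorem Field_serField_finiteDimensional_aux {F M : Type*} [Field F] [Field M] [Algebra F M]
    {p : ℕ} {U : Set F} (hp : 0 < p) (hU : U.Finite) :
    FiniteDimensional F
      (IntermediateField.adjoin F {y : M | ∃ u ∈ U, y ^ p = algebraMap F M u}) := by
  classical
  have hfin : {y : M | ∃ u ∈ U, y ^ p = algebraMap F M u}.Finite := by
    have : {y : M | ∃ u ∈ U, y ^ p = algebraMap F M u} ⊆
        ⋃ u ∈ U, ((Polynomial.nthRoots p (algebraMap F M u)).toFinset : Set M) := by
      rintro y ⟨u, hu, hy⟩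
      refine Set.mem_biUnion hu ?_
      rw [Finset.mem_coe, Multiset.mem_toFinset, Polynomial.mem_nthRoots hp]
      exact hy
    exact (hU.biUnion (fun u _ => Finset.finite_toSet _)).subset this
  have : Finite {y : M | ∃ u ∈ U, y ^ p = algebraMap F M u} := hfin.to_subtype
  refine IntermediateField.finiteDimensional_adjoin (fun x hx => ?_)
  obtain ⟨u, -, hy⟩ := hx
  exact IsIntegral.of_pow hp (hy ▸ isIntegral_algebraMap)

theorem serField_finiteDimensional (hp : 0 < p) (hU : U.Finite) :
    FiniteDimensional (laurentBaseChange L F₀) (serField F₀ p U) := by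
  exact Field_serField_finiteDimensional_aux hp hU

/-- abstract form of `serField_normal`. -/
theorem Field_serField_normal_abs {F E : Type*} [Field F] [Field E] [Algebra F E] {p : ℕ}
    (hp : 0 < p) (U : Set F) {ζ : F} (hζ : IsPrimitiveRoot ζ p) :
    Normal F (IntermediateField.adjoin F {y : E | ∃ u ∈ U, y ^ p = algebraMap F E u}) := by
  classical
  have hmem : ∀ (u : F) (y : E),
      y ∈ (Polynomial.X ^ p - Polynomial.C u : Polynomial F).rootSet E ↔
        y ^ p = algebraMap F E u := by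
    intro u y
    rw [Polynomial.mem_rootSet_of_ne (Polynomial.X_pow_sub_C_ne_zero hp u)]
    simp [sub_eq_zero]
  choose! u huU hu using
    (fun (y : E) (hy : y ∈ {y : E | ∃ u ∈ U, y ^ p = algebraMap F E u}) => hy)
  have heq : IntermediateField.adjoin F {y : E | ∃ u ∈ U, y ^ p = algebraMap F E u} =
      ⨆ y : {y : E | ∃ u ∈ U, y ^ p = algebraMap F E u}, IntermediateField.adjoin F
        ((Polynomial.X ^ p - Polynomial.C (u y) : Polynomial F).rootSet E) := by
    apply le_antisymm
    · rw [IntermediateField.adjoin_le_iff]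
      intro y hy
      exact (le_iSup (fun y : {y : E | ∃ u ∈ U, y ^ p = algebraMap F E u} =>
        IntermediateField.adjoin F
          ((Polynomial.X ^ p - Polynomial.C (u y) : Polynomial F).rootSet E)) ⟨y, hy⟩)
        (IntermediateField.subset_adjoin _ _ ((hmem _ _).2 (hu y hy)))
    · refine iSup_le fun y => IntermediateField.adjoin.mono _ _ _ ?_
      intro z hz
      exact ⟨u y, huU y y.2, (hmem _ _).1 hz⟩
  rw [heq]
  have hn : ∀ y : {y : E | ∃ u ∈ U, y ^ p = algebraMap F E u}, Normal F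
      (IntermediateField.adjoin F
        ((Polynomial.X ^ p - Polynomial.C (u y) : Polynomial F).rootSet E)) := by
    intro y
    have hsplit : ((Polynomial.X ^ p - Polynomial.C (u y) : Polynomial F).map
        (algebraMap F E)).Splits := by
      have h1 := X_pow_sub_C_splits_of_isPrimitiveRoot
        (hζ.map_of_injective (algebraMap F E).injective) (hu y y.2)
      simpa using h1
    have h2 := IntermediateField.adjoin_rootSet_isSplittingField hsplit
    exact Normal.of_isSplittingField (Polynomial.X ^ p - Polynomial.C (u y) : Polynomial F)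
  exact IntermediateField.normal_iSup F E _

/-- normality: needs the `p`-th roots of unity in `L`. -/
theorem serField_normal (hp : 0 < p) (hU : U.Finite) {ζ : L} (hζ : IsPrimitiveRoot ζ p) :
    Normal (laurentBaseChange L F₀) (serField F₀ p U) := by
  exact Field_serField_normal_abs hp U
    (hζ.map_of_injective (algebraMap L (laurentBaseChange L F₀)).injective)

theorem serField_isGalois (hp : 0 < p) (hU : U.Finite) {ζ : L} (hζ : IsPrimitiveRoot ζ p) :
    IsGalois (laurentBaseChange L F₀) (serField F₀ p U) :=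
  haveI := serField_normal (F₀ := F₀) hp hU hζ
  haveI : CharZero L := algebraRat.charZero L
  haveI : CharZero (laurentBaseChange L F₀) :=
    charZero_of_injective_algebraMap (algebraMap L (laurentBaseChange L F₀)).injective
  haveI := serField_finiteDimensional (F₀ := F₀) hp hU
  haveI : Algebra.IsAlgebraic (laurentBaseChange L F₀) (serField F₀ p U) :=
    Algebra.IsAlgebraic.of_finite _ _
  haveI : Algebra.IsSeparable (laurentBaseChange L F₀) (serField F₀ p U) :=
    Algebra.IsAlgebraic.isSeparable_of_perfectField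
  isGalois_iff.mpr ⟨this, serField_normal (F₀ := F₀) hp hU hζ⟩

theorem Field_serField_adjoin_roots_eq_top_aux {F M : Type*} [Field F] [Field M] [Algebra F M]
    {p : ℕ} {U : Set F} :
    IntermediateField.adjoin F
      {y : IntermediateField.adjoin F {y : M | ∃ u ∈ U, y ^ p = algebraMap F M u} |
        ∃ u ∈ U, y ^ p = algebraMap F _ u} = ⊤ := by
  apply IntermediateField.map_injective
    (IntermediateField.adjoin F {y : M | ∃ u ∈ U, y ^ p = algebraMap F M u}).val
  rw [IntermediateField.adjoin_map, ← AlgHom.fieldRange_eq_map, IntermediateField.fieldRange_val]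
  congr 1
  ext y
  constructor
  · rintro ⟨z, ⟨u, hu, hz⟩, rfl⟩
    exact ⟨u, hu, congrArg Subtype.val hz⟩
  · rintro ⟨u, hu, hy⟩
    exact ⟨⟨y, IntermediateField.subset_adjoin _ _ ⟨u, hu, hy⟩⟩, ⟨u, hu, Subtype.ext hy⟩, rfl⟩

theorem serField_adjoin_roots_eq_top :
    IntermediateField.adjoin (laurentBaseChange L F₀)
      {y : serField F₀ p U | ∃ u ∈ U, y ^ p = algebraMap _ (serField F₀ p U) u} = ⊤ := by
  exact Field_serField_adjoin_roots_eq_top_aux

theorem Field_coeffMap_mem_serField_aux {F M : Type*} [Field F] [Field M] [Algebra F M]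
    {p : ℕ} {U : Set F} (Φ : M →+* M) (s : F → F)
    (hΦ : ∀ f : F, Φ (algebraMap F M f) = algebraMap F M (s f))
    (hU : ∀ u ∈ U, ∃ u' ∈ U, ∃ v : F, v ≠ 0 ∧ s u = u' * v ^ p)
    {z : M} (hz : z ∈ IntermediateField.adjoin F {y : M | ∃ u ∈ U, y ^ p = algebraMap F M u}) :
    Φ z ∈ IntermediateField.adjoin F {y : M | ∃ u ∈ U, y ^ p = algebraMap F M u} := by
  induction hz using IntermediateField.adjoin_induction with
  | mem y hy =>
    obtain ⟨u, hu, hy⟩ := hy
    obtain ⟨u', hu', v, hv, huv⟩ := hU u hu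
    have hv' : algebraMap F M v ≠ 0 := by
      rwa [Ne, map_eq_zero]
    have h1 : (Φ y / algebraMap F M v) ^ p = algebraMap F M u' := by
      rw [div_pow, ← map_pow, hy, hΦ, huv, map_mul, map_pow, mul_div_assoc,
        div_self (pow_ne_zero _ hv'), mul_one]
    have h2 : Φ y / algebraMap F M v ∈
        IntermediateField.adjoin F {y : M | ∃ u ∈ U, y ^ p = algebraMap F M u} :=
      IntermediateField.subset_adjoin _ _ ⟨u', hu', h1⟩
    have h3 : Φ y = (Φ y / algebraMap F M v) * algebraMap F M v := by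
      rw [div_mul_cancel₀ _ hv']
    rw [h3]
    exact IntermediateField.mul_mem _ h2 (IntermediateField.algebraMap_mem _ v)
  | algebraMap f =>
    rw [hΦ]
    exact IntermediateField.algebraMap_mem _ _
  | add x y _ _ hx hy =>
    rw [map_add]
    exact IntermediateField.add_mem _ hx hy
  | inv x _ hx =>
    rw [map_inv₀]
    exact IntermediateField.inv_mem _ hx
  | mul x y _ _ hx hy =>
    rw [map_mul]
    exact IntermediateField.mul_mem _ hx hy

/-- the coefficientwise map preserves `serField`. -/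
theorem coeffMap_mem_serField (σ : L ≃ₐ[ℚ] L)
    (hU : ∀ u ∈ U, ∃ u' ∈ U, ∃ v : laurentBaseChange L F₀, v ≠ 0 ∧
      arithmeticGalois F₀ σ • u = u' * v ^ p)
    {z : LaurentSeries L} (hz : z ∈ serField F₀ p U) :
    coeffMap (σ : L →+* L) z ∈ serField F₀ p U := by
  refine Field_coeffMap_mem_serField_aux (coeffMap (σ : L →+* L))
    (fun f => arithmeticGalois F₀ σ • f) (fun f => ?_) hU hz
  rw [IntermediateField.algebraMap_apply, IntermediateField.algebraMap_apply,
    coe_arithmeticGalois_smul]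

/-- `Γ` permutes `U` modulo `p`-th powers. -/
def Stable (Γ : Subgroup (L ≃ₐ[ℚ] L)) (p : ℕ) (U : Set (laurentBaseChange L F₀)) : Prop :=
  ∀ σ ∈ Γ, ∀ u ∈ U, ∃ u' ∈ U, ∃ v : laurentBaseChange L F₀, v ≠ 0 ∧
    arithmeticGalois F₀ σ • u = u' * v ^ p

variable {Γ : Subgroup (L ≃ₐ[ℚ] L)}

/-- the coefficientwise ring automorphism of `serField`. -/
def serRingAut (hS : Stable Γ p U) (σ : Γ) : serField F₀ p U ≃+* serField F₀ p U where
  toFun z := ⟨coeffMap ((σ : L ≃ₐ[ℚ] L) : L →+* L) (z : LaurentSeries L),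
    coeffMap_mem_serField _ (hS σ σ.2) z.2⟩
  invFun z := ⟨coeffMap (((σ : L ≃ₐ[ℚ] L).symm : L ≃ₐ[ℚ] L) : L →+* L) (z : LaurentSeries L),
    coeffMap_mem_serField _ (hS _ (Γ.inv_mem σ.2)) z.2⟩
  left_inv z := Subtype.ext <| by
    show coeffMap (((σ : L ≃ₐ[ℚ] L).symm : L ≃ₐ[ℚ] L) : L →+* L)
      (coeffMap ((σ : L ≃ₐ[ℚ] L) : L →+* L) (z : LaurentSeries L)) = (z : LaurentSeries L)
    rw [coeffMap_coeffMap,
      coeffMap_congr (g := RingHom.id L)
        (RingHom.ext fun a => (σ : L ≃ₐ[ℚ] L).symm_apply_apply a) (z : LaurentSeries L),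
      coeffMap_id]
  right_inv z := Subtype.ext <| by
    show coeffMap ((σ : L ≃ₐ[ℚ] L) : L →+* L)
      (coeffMap (((σ : L ≃ₐ[ℚ] L).symm : L ≃ₐ[ℚ] L) : L →+* L) (z : LaurentSeries L)) =
        (z : LaurentSeries L)
    rw [coeffMap_coeffMap,
      coeffMap_congr (g := RingHom.id L)
        (RingHom.ext fun a => (σ : L ≃ₐ[ℚ] L).apply_symm_apply a) (z : LaurentSeries L),
      coeffMap_id]
  map_mul' x y := Subtype.ext (map_mul (coeffMap ((σ : L ≃ₐ[ℚ] L) : L →+* L))
    (x : LaurentSeries L) (y : LaurentSeries L))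
  map_add' x y := Subtype.ext (map_add (coeffMap ((σ : L ≃ₐ[ℚ] L) : L →+* L))
    (x : LaurentSeries L) (y : LaurentSeries L))

theorem coe_serRingAut (hS : Stable Γ p U) (σ : Γ) (z : serField F₀ p U) :
    ((serRingAut hS σ z : serField F₀ p U) : LaurentSeries L) =
      coeffMap ((σ : L ≃ₐ[ℚ] L) : L →+* L) (z : LaurentSeries L) := rfl

/-- the coefficientwise action of `Γ` on `serField`. -/
def serAut (hS : Stable Γ p U) : Γ →* SemilinearAut L (serField F₀ p U) where
  toFun σ := ⟨(serRingAut hS σ, (σ : L ≃ₐ[ℚ] L).toRingEquiv), fun a =>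
    Subtype.ext (coeffMap_algebraMap ((σ : L ≃ₐ[ℚ] L) : L →+* L) a)⟩
  map_one' := by
    refine Subtype.ext (Prod.ext (RingEquiv.ext fun x => Subtype.ext ?_) rfl)
    show coeffMap ((1 : L ≃ₐ[ℚ] L) : L →+* L) (x : LaurentSeries L) = (x : LaurentSeries L)
    rw [show ((1 : L ≃ₐ[ℚ] L) : L →+* L) = RingHom.id L from RingHom.ext fun _ => rfl,
      coeffMap_id]
  map_mul' σ τ := by
    refine Subtype.ext (Prod.ext (RingEquiv.ext fun x => Subtype.ext ?_) rfl)
    show coeffMap (((σ : L ≃ₐ[ℚ] L) * (τ : L ≃ₐ[ℚ] L) : L ≃ₐ[ℚ] L) : L →+* L)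
        (x : LaurentSeries L)
      = coeffMap ((σ : L ≃ₐ[ℚ] L) : L →+* L)
          (coeffMap ((τ : L ≃ₐ[ℚ] L) : L →+* L) (x : LaurentSeries L))
    rw [coeffMap_coeffMap]
    exact coeffMap_congr (RingHom.ext fun _ => rfl) _

theorem coe_serAut_smul (hS : Stable Γ p U) (σ : Γ) (z : serField F₀ p U) :
    ((serAut hS σ • z : serField F₀ p U) : LaurentSeries L) =
      coeffMap ((σ : L ≃ₐ[ℚ] L) : L →+* L) (z : LaurentSeries L) := rfl

theorem baseAut_serAut (hS : Stable Γ p U) (σ : Γ) :
    SemilinearAut.baseAut (serAut hS σ) = (σ : L ≃ₐ[ℚ] L).toRingEquiv := rfl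

/-- it extends the arithmetic Galois action on `F`. -/
theorem serAut_algebraMap (hS : Stable Γ p U) (σ : Γ) (f : laurentBaseChange L F₀) :
    serAut hS σ • algebraMap (laurentBaseChange L F₀) (serField F₀ p U) f =
      algebraMap (laurentBaseChange L F₀) (serField F₀ p U)
        (arithmeticGalois F₀ (σ : L ≃ₐ[ℚ] L) • f) := by
  apply Subtype.ext
  rw [coe_serAut_smul, coe_algebraMap_serField', coe_algebraMap_serField',
    coe_arithmeticGalois_smul]

/-- **The series model.** -/
def serModel (hS : Stable Γ p U) : SerModel L (serField F₀ p U) Γ where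
  ι := ((serField F₀ p U).val.restrictScalars L)
  Φ := serAut hS
  ι_smul := fun _ _ => rfl

/-- abstract generator step of `deck_comm`. -/
theorem Field_deck_comm_gen {L E : Type*} [Field L] [Field E] [Algebra L E] {p : ℕ} (hp : 0 < p)
    {ζ : L} (hζ : IsPrimitiveRoot ζ p) (s g : E →+* E) (σ : L → L) (a : ℕ)
    (hs : ∀ c, s (algebraMap L E c) = algebraMap L E (σ c))
    (hg : ∀ c, g (algebraMap L E c) = algebraMap L E c)
    (ha : ∀ μ : L, μ ^ p = 1 → σ μ = μ ^ a)
    {y u v : E} (hv : v ≠ 0) (hy : y ^ p = u) (hsu : s u = u ^ a * v ^ p) (hgu : g u = u)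
    (hgv : g v = v) : g (s y) = s (g y) := by
  rcases eq_or_ne y 0 with rfl | hy0
  · simp
  have key : ∀ {x z : E}, z ≠ 0 → x ^ p = z ^ p → ∃ i : ℕ, x = algebraMap L E (ζ ^ i) * z := by
    intro x z hz h
    have h1 : (x / z) ^ p = 1 := by rw [div_pow, h, div_self (pow_ne_zero _ hz)]
    have hζ' : IsPrimitiveRoot (algebraMap L E ζ) p :=
      hζ.map_of_injective (algebraMap L E).injective
    haveI : NeZero p := ⟨hp.ne'⟩
    obtain ⟨i, -, hi⟩ := hζ'.eq_pow_of_pow_eq_one h1
    refine ⟨i, ?_⟩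
    rw [map_pow, hi, div_mul_cancel₀ _ hz]
  obtain ⟨i, hi⟩ := key (x := g y) hy0 (by rw [← map_pow, hy, hgu])
  obtain ⟨j, hj⟩ := key (x := s y) (z := y ^ a * v) (mul_ne_zero (pow_ne_zero _ hy0) hv)
    (by rw [← map_pow, hy, hsu, mul_pow, ← hy, ← pow_mul, ← pow_mul, mul_comm p a])
  have hμ : (ζ ^ i) ^ p = 1 := by rw [← pow_mul, mul_comm, pow_mul, hζ.pow_eq_one, one_pow]
  rw [hi, map_mul s, hs, ha _ hμ, hj, map_mul g, map_mul g, map_pow g, hg, hgv, hi, mul_pow,
    map_pow (algebraMap L E) (ζ ^ i) a]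
  ring

/-- abstract induction step of `deck_comm`. -/
theorem Field_deck_comm_ind {F E : Type*} [Field F] [Field E] [Algebra F E] (s : E →+* E)
    (g : E ≃ₐ[F] E) (Gen : Set E) (htop : IntermediateField.adjoin F Gen = ⊤)
    (hF : ∀ f : F, ∃ f' : F, s (algebraMap F E f) = algebraMap F E f')
    (hGen : ∀ y ∈ Gen, g (s y) = s (g y)) (y : E) : g (s y) = s (g y) := by
  have hy : y ∈ IntermediateField.adjoin F Gen := by
    rw [htop]
    exact IntermediateField.mem_top
  induction hy using IntermediateField.adjoin_induction with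
  | mem x hx => exact hGen x hx
  | algebraMap f =>
    obtain ⟨f', hf'⟩ := hF f
    rw [hf', AlgEquiv.commutes, AlgEquiv.commutes, hf']
  | add x z _ _ hx hz => rw [map_add, map_add, map_add, map_add, hx, hz]
  | inv x _ hx => rw [map_inv₀, map_inv₀, map_inv₀, map_inv₀, hx]
  | mul x z _ _ hx hz => rw [map_mul, map_mul, map_mul, map_mul, hx, hz]

/-- **The coefficientwise action commutes with the deck transformations.** -/
theorem deck_comm (hp : 0 < p) {ζ : L} (hζ : IsPrimitiveRoot ζ p) (hS : Stable Γ p U) (σ : Γ) (a : ℕ)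
    (ha : ∀ μ : L, μ ^ p = 1 → (σ : L ≃ₐ[ℚ] L) μ = μ ^ a)
    (hU : ∀ u ∈ U, ∃ v : laurentBaseChange L F₀, v ≠ 0 ∧
      arithmeticGalois F₀ (σ : L ≃ₐ[ℚ] L) • u = u ^ a * v ^ p)
    (g : serField F₀ p U ≃ₐ[laurentBaseChange L F₀] serField F₀ p U) (y : serField F₀ p U) :
    g (serAut hS σ • y) = serAut hS σ • g y := by
  have hsm : ∀ z : serField F₀ p U, serAut hS σ • z =
      ((SemilinearAut.toRingAut (serAut hS σ) : serField F₀ p U ≃+* serField F₀ p U) :
        serField F₀ p U →+* serField F₀ p U) z := fun _ => rfl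
  rw [hsm, hsm]
  refine Field_deck_comm_ind _ g _ (serField_adjoin_roots_eq_top (F₀ := F₀) (p := p) (U := U))
    ?_ ?_ y
  · intro f
    exact ⟨_, (hsm _).symm.trans (serAut_algebraMap hS σ f)⟩
  · rintro x ⟨u, hu, hx⟩
    obtain ⟨v, hv, huv⟩ := hU u hu
    refine Field_deck_comm_gen (L := L) hp hζ _ (g : serField F₀ p U →+* serField F₀ p U)
      (fun c => (σ : L ≃ₐ[ℚ] L) c) a ?_ ?_ ha
      (v := algebraMap (laurentBaseChange L F₀) (serField F₀ p U) v) ?_ hx ?_ ?_ ?_
    · intro c
      exact (hsm _).symm.trans (SemilinearAut.smul_algebraMap (serAut hS σ) c)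
    · intro c
      rw [IsScalarTower.algebraMap_apply L (laurentBaseChange L F₀) (serField F₀ p U)]
      exact g.commutes _
    · exact (map_ne_zero _).2 hv
    · rw [← hsm, serAut_algebraMap, huv, map_mul, map_pow, map_pow]
    · exact g.commutes _
    · exact g.commutes _

/-- every element of `F` has a finite orbit under `Aut(L/ℚ)`, `L` algebraic over `ℚ`. -/
theorem Field_finite_orbit_base [Algebra.IsAlgebraic ℚ L] (f : laurentBaseChange L F₀) :
    (Set.range fun σ : L ≃ₐ[ℚ] L => arithmeticGalois F₀ σ • f).Finite := by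
  have h := Fermat.Agent.GAL.Desc.finOrb_bc (RingHom.id L) F₀ f
  have hf : Fermat.Agent.GAL.Desc.bc (RingHom.id L) F₀ f = f := by
    apply Subtype.ext
    rw [Fermat.Agent.GAL.Desc.coe_bc, coeffMap_id]
  rw [hf] at h
  exact h

theorem Field_finite_orbit_algebraMap [Algebra.IsAlgebraic ℚ L] (hS : Stable Γ p U)
    (f : laurentBaseChange L F₀) :
    (Set.range fun σ : Γ => serAut hS σ •
      algebraMap (laurentBaseChange L F₀) (serField F₀ p U) f).Finite := by
  refine (Set.Finite.image (algebraMap (laurentBaseChange L F₀) (serField F₀ p U))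
    (Field_finite_orbit_base f)).subset ?_
  rintro _ ⟨σ, rfl⟩
  exact ⟨_, ⟨(σ : L ≃ₐ[ℚ] L), rfl⟩, (serAut_algebraMap hS σ f).symm⟩

theorem Field_finite_orbit_of_pow (hp : 0 < p) (hS : Stable Γ p U) {y : serField F₀ p U}
    (h : (Set.range fun σ : Γ => serAut hS σ • (y ^ p)).Finite) :
    (Set.range fun σ : Γ => serAut hS σ • y).Finite := by
  classical
  have hfin : (⋃ s ∈ (Set.range fun σ : Γ => serAut hS σ • (y ^ p)),
      {z : serField F₀ p U | z ^ p = s}).Finite := by
    refine Set.Finite.biUnion h fun s _ => ?_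
    refine (Polynomial.nthRoots p s).toFinset.finite_toSet.subset fun z hz => ?_
    rw [Finset.mem_coe, Multiset.mem_toFinset, Polynomial.mem_nthRoots hp]
    exact hz
  refine hfin.subset ?_
  rintro _ ⟨σ, rfl⟩
  rw [Set.mem_iUnion₂]
  exact ⟨_, ⟨σ, rfl⟩, (smul_pow' (serAut hS σ) y p).symm⟩

/-- every element of `serField` has a finite orbit. -/
theorem finite_orbit [Algebra.IsAlgebraic ℚ L] (hp : 0 < p) (hS : Stable Γ p U) (y : serField F₀ p U) :
    (Set.range fun σ : Γ => serAut hS σ • y).Finite := by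
  have hy : y ∈ IntermediateField.adjoin (laurentBaseChange L F₀)
      {y : serField F₀ p U | ∃ u ∈ U, y ^ p = algebraMap _ (serField F₀ p U) u} := by
    rw [serField_adjoin_roots_eq_top]
    exact IntermediateField.mem_top
  induction hy using IntermediateField.adjoin_induction with
  | mem z hz =>
      obtain ⟨u, _, hzu⟩ := hz
      apply Field_finite_orbit_of_pow hp hS
      rw [hzu]
      exact Field_finite_orbit_algebraMap hS u
  | algebraMap f => exact Field_finite_orbit_algebraMap hS f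
  | add a b _ _ ha hb =>
      refine (Set.Finite.image2 (· + ·) ha hb).subset ?_
      rintro _ ⟨σ, rfl⟩
      exact ⟨_, ⟨σ, rfl⟩, _, ⟨σ, rfl⟩, (smul_add (serAut hS σ) a b).symm⟩
  | inv a _ ha =>
      refine (Set.Finite.image (fun z => z⁻¹) ha).subset ?_
      rintro _ ⟨σ, rfl⟩
      exact ⟨_, ⟨σ, rfl⟩, (smul_inv'' (serAut hS σ) a).symm⟩
  | mul a b _ _ ha hb =>
      refine (Set.Finite.image2 (· * ·) ha hb).subset ?_
      rintro _ ⟨σ, rfl⟩
      exact ⟨_, ⟨σ, rfl⟩, _, ⟨σ, rfl⟩, (smul_mul' (serAut hS σ) a b).symm⟩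

end Fermat.Agent.MR.PLC.Ser
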