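import Fermat.Agent.MR.PLC.End.Contract
import Fermat.Agent.MR.PLC.Ser.Field
import Fermat.Agent.S17.Unr.Infty
import Fermat.Agent.S33.GalP.Final

/-!
# MR / PLC / Ser / Stmt : the contract `End.SerStatement` from `Ser/Field.lean` and `Ser/Canon.lean`.
-/

set_option autoImplicit false
set_option linter.unusedSectionVars false
set_option linter.style.haveILetI false
set_option synthInstance.maxHeartbeats 400000

noncomputable section

namespace Fermat.Agent.MR.PLC.Ser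

open AlgebraicCurve ModularCurve HahnSeries Fermat.Agent.S24 Fermat.Agent.S24.JRational
  Fermat.Agent.GAL Fermat.Agent.DR.Gal

/-- every Galois automorphism acts on `μ_p` by a power. -/
theorem Stmt_exists_isCyc {p : ℕ} (hp : 0 < p) {ζ : Kbar} (hζ : IsPrimitiveRoot ζ p)
    (τ : Kbar ≃ₐ[ℚ] Kbar) : ∃ a : ℕ, IsCyc p τ a := by
  haveI : NeZero p := ⟨hp.ne'⟩
  have h1 : (τ ζ) ^ p = 1 := by rw [← map_pow, hζ.pow_eq_one, map_one]
  obtain ⟨a, -, ha⟩ := hζ.eq_pow_of_pow_eq_one h1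
  refine ⟨a, fun μ hμ => ?_⟩
  obtain ⟨i, -, rfl⟩ := hζ.eq_pow_of_pow_eq_one hμ
  rw [map_pow, ← ha, ← pow_mul, ← pow_mul, mul_comm]

/-- the `q`-order of a Kummer unit is divisible by `p`. -/
theorem Stmt_dvd_order (N p : ℕ) [NeZero N] (v : kummerUnits Kbar (FN N) p) :
    (p : ℤ) ∣ (((v : (FN N)ˣ) : FN N) : LaurentSeries Kbar).order := by
  rw [← Fermat.Agent.S17.Unr.oo_ord]
  exact v.2 _

/-- the Galois action on a class. -/
theorem Stmt_smul_mk (N p : ℕ) (τ : Kbar ≃ₐ[ℚ] Kbar) (v w : kummerUnits Kbar (FN N) p)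
    (h : τ • (KV.mk v : KV Kbar (FN N) p) = KV.mk w) :
    ∃ y : FN N, y ≠ 0 ∧ gal N τ • ((v : (FN N)ˣ) : FN N) = ((w : (FN N)ˣ) : FN N) * y ^ p := by
  rw [KV.galois_smul_def, KV.semilinear_smul_mk, KV.mk_eq_mk_iff] at h
  obtain ⟨y, hy⟩ := h
  refine ⟨(y : FN N), y.ne_zero, ?_⟩
  have h1 := congrArg (fun z : (FN N)ˣ => (z : FN N)) hy
  simp only [Units.val_mul, Units.val_pow_eq_pow_val] at h1
  rw [mul_comm, h1]
  rfl

/-- the canonical representative, without normalisation of the leading coefficient. -/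
theorem Stmt_h0 {L E Γ : Type*} [Field L] [IsAlgClosed L] [CharZero L] [Field E] [Algebra L E]
    [Group Γ] (Sm : SerModel L E Γ) {p : ℕ} (hp0 : 0 < p) {ζ : L} (hζ : IsPrimitiveRoot ζ p)
    (uE : E) (huE0 : uE ≠ 0) (horb : ∀ y : E, (Set.range fun γ : Γ => Sm.Φ γ • y).Finite)
    (hroot : ∀ γ : Γ, ∃ c : E, c ^ p = (Sm.Φ γ • uE) / uE) :
    ∃ h0 : E, h0 ≠ 0 ∧ ∀ τ : Γ, Sm.Φ τ • (uE * h0 ^ p) = uE * h0 ^ p := by
  have hc0 : Sm.lc uE ≠ 0 := Sm.lc_ne_zero huE0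
  obtain ⟨b, hb⟩ := IsAlgClosed.exists_pow_nat_eq (Sm.lc uE)⁻¹ hp0
  have hb0 : b ≠ 0 := by
    rintro rfl
    rw [zero_pow hp0.ne'] at hb
    exact inv_ne_zero hc0 hb.symm
  have hbE0 : algebraMap L E b ≠ 0 := (map_ne_zero _).2 hb0
  have hlc : Sm.lc (uE * algebraMap L E b ^ p) = 1 := by
    rw [Sm.lc_mul, Sm.lc_pow, Sm.lc_algebraMap, hb, mul_inv_cancel₀ hc0]
  have hroot' : ∀ γ : Γ, ∃ c : E,
      c ^ p = (Sm.Φ γ • (uE * algebraMap L E b ^ p)) / (uE * algebraMap L E b ^ p) := by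
    intro γ
    obtain ⟨c, hc⟩ := hroot γ
    refine ⟨c * ((Sm.Φ γ • algebraMap L E b) / algebraMap L E b), ?_⟩
    rw [mul_pow, hc, smul_mul', smul_pow', div_pow, div_mul_div_comm]
  obtain ⟨d, hd0, hd⟩ := Sm.exists_fixed_rep hp0 hζ hlc (horb _) hroot'
  refine ⟨algebraMap L E b * d, mul_ne_zero hbE0 hd0, fun τ => ?_⟩
  have e : uE * (algebraMap L E b * d) ^ p = uE * algebraMap L E b ^ p * d ^ p := by
    rw [mul_pow, mul_assoc]
  rw [e]
  exact hd τ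

set_option maxHeartbeats 2000000 in
/-- **(SER)** -/
theorem serStatement86 : End.SerStatement := by
  intro N p _ _ hp A S x hS hx u hu
  classical
  haveI := Fermat.Agent.S33.GalP.finite_KV N p
  haveI : Algebra.IsAlgebraic ℚ Kbar := AlgebraicClosure.isAlgebraic ℚ
  have hp0 : 0 < p := hp.pos
  have hpK : (p : Kbar) ≠ 0 := Nat.cast_ne_zero.2 hp.ne_zero
  obtain ⟨ζ, hζ⟩ : ∃ ζ : Kbar, IsPrimitiveRoot ζ p :=
    HasEnoughRootsOfUnity.exists_primitiveRoot Kbar p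
  choose rep hrep using (fun s : KV Kbar (FN N) p => KV.mk_surjective s)
  let U : Set (FN N) := Set.range (fun s : S => (((rep s : kummerUnits Kbar (FN N) p) : (FN N)ˣ) : FN N))
  have hUfin : U.Finite := Set.finite_range _
  -- the action on `U`
  have hpow : ∀ τ ∈ A.inertiaSubgroupIn ℚ, ∀ a : ℕ, IsCyc p τ a → ∀ w ∈ U,
      ∃ v : FN N, v ≠ 0 ∧ gal N τ • w = w ^ a * v ^ p := by
    rintro τ hτ a ha _ ⟨s, rfl⟩
    have h1 : τ • (KV.mk (rep s) : KV Kbar (FN N) p) = KV.mk ((rep s) ^ a) := by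
      rw [KV.mk_pow, hrep]
      exact hS τ hτ a ha s s.2
    obtain ⟨y, hy0, hy⟩ := Stmt_smul_mk N p τ _ _ h1
    exact ⟨y, hy0, hy⟩
  have hSt : Stable (F₀ := modularFunctionFieldFull N) (A.inertiaSubgroupIn ℚ) p U := by
    rintro τ hτ _ ⟨s, rfl⟩
    obtain ⟨a, ha⟩ := Stmt_exists_isCyc hp0 hζ τ
    have hs' : a • (s : KV Kbar (FN N) p) ∈ S := S.nsmul_mem s.2 a
    have h1 : τ • (KV.mk (rep s) : KV Kbar (FN N) p) = KV.mk (rep (a • (s : KV Kbar (FN N) p))) := by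
      rw [hrep, hrep]
      exact hS τ hτ a ha s s.2
    obtain ⟨y, hy0, hy⟩ := Stmt_smul_mk N p τ _ _ h1
    exact ⟨_, ⟨⟨_, hs'⟩, rfl⟩, y, hy0, hy⟩
  haveI hfd := serField_finiteDimensional (F₀ := modularFunctionFieldFull N) (L := Kbar) hp0 hUfin
  haveI hgal := serField_isGalois (F₀ := modularFunctionFieldFull N) (L := Kbar) hp0 hUfin hζ
  refine ⟨↥(serField (L := Kbar) (modularFunctionFieldFull N) p U), inferInstance, inferInstance,
    inferInstance, inferInstance, hfd, hgal, serModel hSt, ?_, ?_, ?_⟩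
  · refine ⟨fun τ a => rfl, fun τ y => serAut_algebraMap hSt τ y, fun τ g z => ?_,
      fun y => finite_orbit hp0 hSt y, fun y => coe_algebraMap_serField' y⟩
    obtain ⟨a, ha⟩ := Stmt_exists_isCyc hp0 hζ (τ : Kbar ≃ₐ[ℚ] Kbar)
    exact (deck_comm hp0 hζ hSt τ a ha (hpow τ τ.2 a ha) g z).symm
  · rw [← top_le_iff, ← serField_adjoin_roots_eq_top (F₀ := modularFunctionFieldFull N) (L := Kbar)
      (p := p) (U := U)]
    apply IntermediateField.adjoin.mono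
    rintro y ⟨_, ⟨s, rfl⟩, hy⟩
    exact ⟨rep s, by rw [hrep]; exact s.2, hy⟩
  · refine Stmt_h0 (serModel hSt) hp0 hζ _ ((map_ne_zero _).2 (u : (FN N)ˣ).ne_zero)
      (fun y => finite_orbit hp0 hSt y) (fun γ => ?_)
    have hs : (γ : Kbar ≃ₐ[ℚ] Kbar) • x - x ∈ S := hx γ γ.2
    have h1 : (γ : Kbar ≃ₐ[ℚ] Kbar) • (KV.mk u : KV Kbar (FN N) p) =
        KV.mk (u * rep ((γ : Kbar ≃ₐ[ℚ] Kbar) • x - x)) := by
      rw [KV.mk_mul, hrep, hu]
      abel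
    obtain ⟨y, hy0, hy⟩ := Stmt_smul_mk N p (γ : Kbar ≃ₐ[ℚ] Kbar) u
      (u * rep ((γ : Kbar ≃ₐ[ℚ] Kbar) • x - x)) h1
    obtain ⟨r, hr⟩ := exists_pow_eq_laurent hpK _
      (Stmt_dvd_order N p (rep ((γ : Kbar ≃ₐ[ℚ] Kbar) • x - x)))
    have hrm : r ∈ serField (L := Kbar) (modularFunctionFieldFull N) p U :=
      mem_serField_of_pow (u := ((rep ((γ : Kbar ≃ₐ[ℚ] Kbar) • x - x) : (FN N)ˣ) : FN N))
        ⟨⟨_, hs⟩, rfl⟩ hr
    refine ⟨⟨r, hrm⟩ * algebraMap (FN N) _ y, ?_⟩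
    have h2 : (serModel hSt).Φ γ • algebraMap (FN N)
        ↥(serField (L := Kbar) (modularFunctionFieldFull N) p U) ((u : (FN N)ˣ) : FN N) =
        algebraMap (FN N) _ (gal N γ • ((u : (FN N)ˣ) : FN N)) := serAut_algebraMap hSt γ _
    have h3 : (⟨r, hrm⟩ : ↥(serField (L := Kbar) (modularFunctionFieldFull N) p U)) ^ p =
        algebraMap (FN N) _ ((rep ((γ : Kbar ≃ₐ[ℚ] Kbar) • x - x) : (FN N)ˣ) : FN N) :=
      Subtype.ext hr
    rw [h2, hy, mul_pow, h3, Subgroup.coe_mul, Units.val_mul, map_mul, map_mul, map_pow,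
      mul_assoc, mul_div_cancel_left₀ _ ((map_ne_zero _).2 (u : (FN N)ˣ).ne_zero)]

end Fermat.Agent.MR.PLC.Ser
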